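import Mathlib

/-!
# Choice of algebraically independent even functions (S26, block F1), pure field part
-/

set_option autoImplicit false

noncomputable section

open Algebra

namespace Fermat.Agent.AVZ

section Choice

variable {B Om : Type*} [Field B] [Field Om] [Algebra B Om]

/-- If for all sets with less than `g` elements some element of `S i` is transcendental over it,
then algebraically independent elements `s i ∈ S i` exist. -/
theorem exists_algebraicIndependent {g : ℕ} (S : Fin g → Set Om)
    (h : ∀ (t : Finset Om), t.card < g → ∀ i : Fin g,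
      ∃ s ∈ S i, Transcendental (adjoin B (t : Set Om)) s) :
    ∃ s : Fin g → Om, (∀ i, s i ∈ S i) ∧ AlgebraicIndependent B s := by
  classical
  have key : ∀ m : ℕ, m ≤ g → ∃ s : Fin g → Om, (∀ i : Fin g, (i : ℕ) < m → s i ∈ S i) ∧
      AlgebraicIndepOn B s {i : Fin g | (i : ℕ) < m} := by
    intro m
    induction m with
    | zero =>
      intro _
      refine ⟨fun _ => 0, fun i hi => absurd hi (Nat.not_lt_zero _), ?_⟩
      have he : IsEmpty ({i : Fin g | (i : ℕ) < 0} : Set (Fin g)) :=
        ⟨fun i => absurd i.2 (Nat.not_lt_zero _)⟩
      exact algebraicIndependent_empty_type_iff.mpr (algebraMap B Om).injective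
    | succ m ih =>
      intro hm
      obtain ⟨s, hs, hind⟩ := ih (by omega)
      have hmg : m < g := by omega
      let t : Finset Om := (Finset.univ.filter fun i : Fin g => (i : ℕ) < m).image s
      have ht : t.card < g := by
        refine lt_of_le_of_lt Finset.card_image_le ?_
        have h1 : (Finset.univ.filter fun i : Fin g => (i : ℕ) < m) ⊆
            Finset.univ.erase ⟨m, hmg⟩ := by
          intro i hi
          rw [Finset.mem_filter] at hi
          rw [Finset.mem_erase]
          refine ⟨?_, Finset.mem_univ _⟩
          rintro rfl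
          exact lt_irrefl _ hi.2
        have h2 := Finset.card_le_card h1
        rw [Finset.card_erase_of_mem (Finset.mem_univ _), Finset.card_univ, Fintype.card_fin] at h2
        omega
      obtain ⟨a, haS, ha⟩ := h t ht ⟨m, hmg⟩
      let s' : Fin g → Om := Function.update s ⟨m, hmg⟩ a
      have hs'1 : ∀ i : Fin g, (i : ℕ) < m → s' i = s i := by
        intro i hi
        apply Function.update_of_ne
        rintro rfl
        exact lt_irrefl _ hi
      have hs'2 : s' ⟨m, hmg⟩ = a := Function.update_self _ _ _
      refine ⟨s', ?_, ?_⟩
      · intro i hi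
        rcases Nat.lt_succ_iff_lt_or_eq.mp hi with h1 | h1
        · rw [hs'1 i h1]; exact hs i h1
        · have : i = ⟨m, hmg⟩ := Fin.ext h1
          subst this
          rw [hs'2]; exact haS
      · have hset : {i : Fin g | (i : ℕ) < m + 1} = insert ⟨m, hmg⟩ {i : Fin g | (i : ℕ) < m} := by
          ext i
          simp only [Set.mem_ofPred_eq, Set.mem_insert_iff]
          rw [Nat.lt_succ_iff_lt_or_eq]
          constructor
          · rintro (h1 | h1)
            · exact Or.inr h1
            · exact Or.inl (Fin.ext h1)
          · rintro (h1 | h1)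
            · exact Or.inr (by rw [h1])
            · exact Or.inl h1
        rw [hset]
        have hind' : AlgebraicIndepOn B s' {i : Fin g | (i : ℕ) < m} := by
          have e : (fun i : ({i : Fin g | (i : ℕ) < m} : Set (Fin g)) => s' i) =
              fun i : ({i : Fin g | (i : ℕ) < m} : Set (Fin g)) => s i :=
            funext fun i => hs'1 i i.2
          unfold AlgebraicIndepOn
          rw [e]
          exact hind
        refine hind'.insert ?_
        rw [hs'2]
        have e2 : s' '' {i : Fin g | (i : ℕ) < m} = (t : Set Om) := by
          ext y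
          simp only [t, Finset.coe_image, Finset.coe_filter, Finset.mem_univ, true_and,
            Set.mem_image, Set.mem_ofPred_eq]
          constructor
          · rintro ⟨i, hi, rfl⟩
            exact ⟨i, hi, (hs'1 i hi).symm⟩
          · rintro ⟨i, hi, rfl⟩
            exact ⟨i, hi, hs'1 i hi⟩
        rw [e2]
        exact ha
  obtain ⟨s, hs, hind⟩ := key g le_rfl
  refine ⟨s, fun i => hs i i.2, ?_⟩
  have h2 : AlgebraicIndependent B
      (fun i : {i : Fin g | (i : ℕ) < g} => s i) := hind
  exact h2.comp (fun i : Fin g => (⟨i, i.2⟩ : {i : Fin g | (i : ℕ) < g}))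
    (fun i j hij => congrArg (fun x : {i : Fin g | (i : ℕ) < g} => (x : Fin g)) hij)

end Choice

section Disjoint

variable {K Om F : Type*} [Field K] [Field Om] [Algebra K Om] [Field F] [Algebra K F]

/-- algebraic independence is preserved in linearly disjoint extensions -/
theorem algebraicIndependent_of_linearDisjoint (B : IntermediateField K Om) (φ : F →ₐ[K] Om)
    (h : B.LinearDisjoint φ.fieldRange) {ι : Type*} {y : ι → F} (hy : AlgebraicIndependent K y) :
    AlgebraicIndependent B (fun i => φ (y i)) := by
  have hm : LinearIndependent K (fun m : ι →₀ ℕ =>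
      MvPolynomial.aeval y (MvPolynomial.monomial m (1 : K))) := by
    have h0 := (MvPolynomial.basisMonomials ι K).linearIndependent.map'
      (MvPolynomial.aeval y : MvPolynomial ι K →ₐ[K] F).toLinearMap
      (LinearMap.ker_eq_bot.mpr hy)
    have e : (fun m : ι →₀ ℕ => MvPolynomial.aeval y (MvPolynomial.monomial m (1 : K))) =
        (MvPolynomial.aeval y : MvPolynomial ι K →ₐ[K] F).toLinearMap ∘
          MvPolynomial.basisMonomials ι K := by
      funext m
      rw [MvPolynomial.coe_basisMonomials]
      rfl
    rw [e]
    exact h0
  let b : (ι →₀ ℕ) → φ.fieldRange := fun m =>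
    ⟨φ (MvPolynomial.aeval y (MvPolynomial.monomial m (1 : K))), ⟨_, rfl⟩⟩
  have hb : LinearIndependent K b := by
    refine LinearIndependent.of_comp φ.fieldRange.val.toLinearMap ?_
    exact hm.map' φ.toLinearMap (LinearMap.ker_eq_bot.mpr φ.injective)
  have h2 := h.linearIndependent_right hb
  rw [algebraicIndependent_iff]
  intro p hp
  have e : ∀ m : ι →₀ ℕ, MvPolynomial.aeval (fun i => φ (y i))
      (MvPolynomial.basisMonomials ι B m) = φ.fieldRange.val (b m) := by
    intro m
    show MvPolynomial.aeval (fun i => φ (y i)) (MvPolynomial.basisMonomials ι B m) =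
      φ (MvPolynomial.aeval y (MvPolynomial.monomial m (1 : K)))
    rw [MvPolynomial.coe_basisMonomials, MvPolynomial.aeval_monomial, MvPolynomial.aeval_monomial,
      map_one, map_one, one_mul, one_mul, map_finsuppProd]
    simp only [map_pow]
  have h3 := (MvPolynomial.basisMonomials ι B).linearCombination_repr p
  have h4 : Finsupp.linearCombination B (φ.fieldRange.val ∘ b)
      ((MvPolynomial.basisMonomials ι B).repr p) = 0 := by
    rw [← hp]
    conv_rhs => rw [← h3]
    rw [Finsupp.linearCombination_apply, Finsupp.linearCombination_apply, Finsupp.sum,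
      Finsupp.sum, map_sum]
    refine Finset.sum_congr rfl fun m _ => ?_
    rw [map_smul, e]
    rfl
  have h5 := linearIndependent_iff.mp h2 _ h4
  exact (LinearEquiv.map_eq_zero_iff _).mp h5

end Disjoint

end Fermat.Agent.AVZ
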