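import Mathlib

/-!
# Transcendence degrees of intermediate fields (S26, block F1), pure field part
-/

set_option autoImplicit false

noncomputable section

open Algebra IntermediateField Cardinal
open scoped IntermediateField.algebraAdjoinAdjoin

universe u v

namespace Fermat.Agent.AVZ

variable {K : Type u} {Om : Type v} [Field K] [Field Om] [Algebra K Om]

theorem trdeg_adjoin_le_mk (s : Set Om) :
    Algebra.trdeg K (IntermediateField.adjoin K s) ≤ #s := by
  have h1 : Algebra.trdeg K (Algebra.adjoin K s) ≤ #s := by
    have hsurj : Function.Surjective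
        ((MvPolynomial.aeval (fun x : s => (x : Om))).rangeRestrict :
          MvPolynomial s K →ₐ[K] _) := AlgHom.rangeRestrict_surjective _
    have h := lift_trdeg_le_of_surjective _ hsurj
    rw [← Algebra.adjoin_eq_range] at h
    rw [MvPolynomial.trdeg_of_isDomain] at h
    simpa using h
  have h2 := _root_.trdeg_add_eq K (Algebra.adjoin K s) (A := IntermediateField.adjoin K s)
  have h3 : Algebra.trdeg (Algebra.adjoin K s) (IntermediateField.adjoin K s) = 0 :=
    _root_.trdeg_eq_zero
  rw [h3, add_zero] at h2
  rw [← h2]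
  exact h1

theorem trdeg_mono {E F : IntermediateField K Om} (h : E ≤ F) :
    Algebra.trdeg K E ≤ Algebra.trdeg K F :=
  trdeg_le_of_injective (IntermediateField.inclusion h) (IntermediateField.inclusion h).injective

theorem trdeg_le_of_algebraic {M C : IntermediateField K Om} (h : ∀ x ∈ M, IsAlgebraic C x) :
    Algebra.trdeg K M ≤ Algebra.trdeg K C := by
  let Cb : IntermediateField C Om := algebraicClosure C Om
  have h1 : M ≤ Cb.restrictScalars K := fun x hx => mem_algebraicClosure_iff.mpr (h x hx)
  refine (trdeg_mono h1).trans ?_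
  haveI : FaithfulSMul C Cb :=
    (faithfulSMul_iff_algebraMap_injective C Cb).mpr (algebraMap C Cb).injective
  have h2 := _root_.trdeg_add_eq K C (A := Cb)
  have h3 : Algebra.trdeg C Cb = 0 := _root_.trdeg_eq_zero
  rw [h3, add_zero] at h2
  exact h2.ge

theorem exists_set (E : IntermediateField K Om) : ∃ s : Set Om, s ⊆ E ∧
    (∀ x ∈ E, IsAlgebraic (IntermediateField.adjoin K s) x) ∧ #s = Algebra.trdeg K E := by
  obtain ⟨s, hs⟩ := exists_isTranscendenceBasis K E
  refine ⟨Subtype.val '' s, ?_, ?_, ?_⟩
  · rintro _ ⟨x, -, rfl⟩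
    exact x.2
  · intro x hx
    have h1 := hs.isAlgebraic_field
    rw [Subtype.range_coe] at h1
    have h2 : IsAlgebraic (IntermediateField.adjoin K s) (⟨x, hx⟩ : E) := h1.isAlgebraic _
    let L : IntermediateField K Om := IntermediateField.adjoin K (Subtype.val '' s)
    have h4 : ∀ y : E, y ∈ IntermediateField.adjoin K s → (y : Om) ∈ L := by
      intro y hy
      have : (y : Om) ∈ (IntermediateField.adjoin K s).map E.val := ⟨y, hy, rfl⟩
      rw [IntermediateField.adjoin_map] at this
      exact this
    obtain ⟨p, hp0, hp⟩ := h2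
    let f : IntermediateField.adjoin K s →+* L :=
      { toFun := fun y => ⟨(y : E), h4 y y.2⟩
        map_one' := rfl
        map_mul' := fun _ _ => rfl
        map_zero' := rfl
        map_add' := fun _ _ => rfl }
    refine ⟨p.map f, ?_, ?_⟩
    · rwa [Ne, Polynomial.map_eq_zero_iff f.injective]
    · have h5 : (algebraMap E Om) (Polynomial.aeval (⟨x, hx⟩ : E) p) = 0 := by
        rw [hp, map_zero]
      rw [Polynomial.aeval_def, Polynomial.hom_eval₂] at h5
      rw [Polynomial.aeval_def, Polynomial.eval₂_map]
      exact h5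
  · rw [Cardinal.mk_image_eq Subtype.val_injective, hs.cardinalMk_eq_trdeg]

theorem isAlgebraic_mono {C D : IntermediateField K Om} (h : C ≤ D) {x : Om}
    (hx : IsAlgebraic C x) : IsAlgebraic D x := by
  obtain ⟨p, hp0, hp⟩ := hx
  refine ⟨p.map (IntermediateField.inclusion h).toRingHom, ?_, ?_⟩
  · rwa [Ne, Polynomial.map_eq_zero_iff (IntermediateField.inclusion h).toRingHom.injective]
  · rw [Polynomial.aeval_def, Polynomial.eval₂_map]
    exact hp

theorem trdeg_sup_le (E F : IntermediateField K Om) :
    Algebra.trdeg K (E ⊔ F : IntermediateField K Om) ≤ Algebra.trdeg K E + Algebra.trdeg K F := by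
  obtain ⟨s, hsE, hs, hs'⟩ := exists_set E
  obtain ⟨t, htF, ht, ht'⟩ := exists_set F
  let C : IntermediateField K Om := IntermediateField.adjoin K (s ∪ t)
  let Cb : IntermediateField C Om := algebraicClosure C Om
  have h1 : E ⊔ F ≤ Cb.restrictScalars K := by
    refine sup_le ?_ ?_
    · intro x hx
      exact mem_algebraicClosure_iff.mpr (isAlgebraic_mono
        (IntermediateField.adjoin.mono K _ _ Set.subset_union_left) (hs x hx))
    · intro x hx
      exact mem_algebraicClosure_iff.mpr (isAlgebraic_mono
        (IntermediateField.adjoin.mono K _ _ Set.subset_union_right) (ht x hx))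
  refine (trdeg_le_of_algebraic (C := C) fun x hx => mem_algebraicClosure_iff.mp (h1 hx)).trans ?_
  refine (trdeg_adjoin_le_mk _).trans ?_
  rw [← hs', ← ht']
  exact Cardinal.mk_union_le s t

theorem trdeg_bot : Algebra.trdeg K (⊥ : IntermediateField K Om) = 0 := by
  have : Algebra.IsAlgebraic K (⊥ : IntermediateField K Om) := by
    refine ⟨fun x => ?_⟩
    obtain ⟨y, hy⟩ := IntermediateField.mem_bot.mp x.2
    have : x = algebraMap K (⊥ : IntermediateField K Om) y := Subtype.ext hy.symm
    rw [this]
    exact isAlgebraic_algebraMap y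
  exact _root_.trdeg_eq_zero

theorem trdeg_iSup_le {g : Cardinal} {n : ℕ} (E : Fin n → IntermediateField K Om)
    (h : ∀ i, Algebra.trdeg K (E i) ≤ g) :
    Algebra.trdeg K (⨆ i, E i : IntermediateField K Om) ≤ n * g := by
  induction n with
  | zero =>
    rw [iSup_of_empty, trdeg_bot]
    exact zero_le
  | succ n ih =>
    have h1 : (⨆ i, E i : IntermediateField K Om) ≤ (⨆ i : Fin n, E i.castSucc) ⊔ E (Fin.last n) := by
      refine iSup_le fun i => ?_
      refine Fin.lastCases ?_ (fun j => ?_) i
      · exact le_sup_right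
      · exact le_sup_of_le_left (le_iSup (fun i : Fin n => E i.castSucc) j)
    refine (trdeg_mono h1).trans ((trdeg_sup_le _ _).trans ?_)
    rw [Nat.cast_succ, add_mul, one_mul]
    exact add_le_add (ih _ fun i => h _) (h _)

theorem trdeg_add_extendScalars {E F : IntermediateField K Om} (h : E ≤ F) :
    Algebra.trdeg K E + Algebra.trdeg E (extendScalars h) = Algebra.trdeg K F := by
  haveI : FaithfulSMul E (extendScalars h) :=
    (faithfulSMul_iff_algebraMap_injective E (extendScalars h)).mpr (RingHom.injective _)
  exact _root_.trdeg_add_eq K E (A := extendScalars h)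

end Fermat.Agent.AVZ
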