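import Mathlib
import Fermat.Agent.AVZ.Choice
import Fermat.Agent.AVZ.Trdeg
import Fermat.Agent.AVFin.Stmt

/-!
# S26 PLAN kb 66, block F1: choice of the even functions `f_i`
-/

set_option autoImplicit false

noncomputable section

universe u

open IntermediateField

namespace Fermat.Agent.AVZ

open Fermat.Agent.AVn Fermat.Agent.AVFin

variable {K : Type u} [Field K] {g : ℕ} (A : AVar K g) {Ω : Type u} [Field Ω] [Algebra K Ω]

/-! ### fields of definition -/

theorem fd_neg_le (z : A.Pt Ω) : A.fd (-z) ≤ A.fd z := by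
  rw [A.fd_le_iff]
  obtain ⟨z', hz'⟩ := (A.fd_le_iff z (A.fd z)).mp le_rfl
  exact ⟨-z', by rw [AVar.map_neg, hz']⟩

theorem fd_neg (z : A.Pt Ω) : A.fd (-z) = A.fd z :=
  le_antisymm (fd_neg_le A z) (by simpa using fd_neg_le A (-z))

theorem fd_add_le_of {z w : A.Pt Ω} {k : IntermediateField K Ω} (hz : A.fd z ≤ k)
    (hw : A.fd w ≤ k) : A.fd (z + w) ≤ k := by
  obtain ⟨z', rfl⟩ := (A.fd_le_iff z k).mp hz
  obtain ⟨w', rfl⟩ := (A.fd_le_iff w k).mp hw
  rw [A.fd_le_iff]
  exact ⟨z' + w', A.map_add _ _ _⟩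

theorem fd_sub_le_of {z w : A.Pt Ω} {k : IntermediateField K Ω} (hz : A.fd z ≤ k)
    (hw : A.fd w ≤ k) : A.fd (z - w) ≤ k := by
  rw [sub_eq_add_neg]
  exact fd_add_le_of A hz ((fd_neg A w).le.trans hw)

/-- restriction of the codomain to the image -/
def rr {k l : Type u} [Field k] [Field l] [Algebra K k] [Algebra K l] (φ : k →ₐ[K] l) :
    k →ₐ[K] φ.fieldRange :=
  { toFun := fun x => ⟨φ x, x, rfl⟩
    map_one' := Subtype.ext (_root_.map_one φ)
    map_mul' := fun x y => Subtype.ext (_root_.map_mul φ x y)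
    map_zero' := Subtype.ext (_root_.map_zero φ)
    map_add' := fun x y => Subtype.ext (_root_.map_add φ x y)
    commutes' := fun x => Subtype.ext (φ.commutes x) }

theorem val_comp_rr {k l : Type u} [Field k] [Field l] [Algebra K k] [Algebra K l]
    (φ : k →ₐ[K] l) : φ.fieldRange.val.comp (rr φ) = φ := rfl

theorem fd_map_le {k : Type u} [Field k] [Algebra K k] (φ : k →ₐ[K] Ω) (z : A.Pt k) :
    A.fd (A.map φ z) ≤ φ.fieldRange := by
  rw [A.fd_le_iff]
  refine ⟨A.map (rr φ) z, ?_⟩
  rw [← A.map_comp, val_comp_rr]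

theorem fd_map_gen_le (φ : A.F →ₐ[K] Ω) : A.fd (A.map φ A.gen) ≤ φ.fieldRange :=
  fd_map_le A φ A.gen

theorem fieldRange_le_fd (φ : A.F →ₐ[K] Ω) : φ.fieldRange ≤ A.fd (A.map φ A.gen) := by
  obtain ⟨z', hz'⟩ := (A.fd_le_iff _ (A.fd (A.map φ A.gen))).mp le_rfl
  -- the inverse `fieldRange → F`
  let e : A.F ≃ₐ[K] φ.fieldRange := AlgEquiv.ofInjectiveField φ
  let i : A.fd (A.map φ A.gen) →ₐ[K] φ.fieldRange :=
    IntermediateField.inclusion (fd_map_gen_le A φ)
  let j : A.fd (A.map φ A.gen) →ₐ[K] A.F := (e.symm : φ.fieldRange →ₐ[K] A.F).comp i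
  have h1 : φ.comp j = (A.fd (A.map φ A.gen)).val := by
    ext x
    have h2 : ((e (e.symm (i x)) : φ.fieldRange) : Ω) = φ (e.symm (i x)) := rfl
    show φ (e.symm (i x)) = x
    rw [← h2, AlgEquiv.apply_symm_apply]
    rfl
  have h2 : A.map j z' = A.gen := by
    apply A.map_injective φ
    rw [← A.map_comp, h1, hz']
  have h3 : A.fd A.gen ≤ j.fieldRange := by
    have := fd_map_le A j z'
    rwa [h2] at this
  rw [A.fd_gen] at h3
  rintro _ ⟨f, rfl⟩
  obtain ⟨x, hx⟩ := h3 (show f ∈ (⊤ : IntermediateField K A.F) from IntermediateField.mem_top)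
  have h4 : φ (j x) = x := DFunLike.congr_fun h1 x
  have h5 : φ f = x := by
    rw [← h4]
    exact congrArg φ hx.symm
  exact h5 ▸ x.2

theorem fd_map_gen (φ : A.F →ₐ[K] Ω) : A.fd (A.map φ A.gen) = φ.fieldRange :=
  le_antisymm (fd_map_gen_le A φ) (fieldRange_le_fd A φ)

/-! ### the involution -/

theorem exists_neg : ∃ ι : A.F →ₐ[K] A.F, A.map ι A.gen = -A.gen ∧ ∀ f, ι (ι f) = f := by
  have h1 : Algebra.trdeg K (A.fd (-A.gen)) = g := by
    rw [fd_neg, A.fd_gen, ← A.trdeg_F]
    exact AlgEquiv.trdeg_eq IntermediateField.topEquiv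
  obtain ⟨ι, hι⟩ := A.exists_ev _ h1
  refine ⟨ι, hι, ?_⟩
  have h2 : ι.comp ι = AlgHom.id K A.F := by
    apply A.ev_unique
    rw [A.map_comp, hι, AVar.map_neg, hι, neg_neg, A.map_id]
  exact fun f => DFunLike.congr_fun h2 f

/-- the values of `F` are integral over each field containing the values of the even functions -/
theorem isIntegral_of_even (φ : A.F →ₐ[K] Ω) {M : Type u} [Field M] [Algebra M Ω]
    (h : ∀ f : A.F, A.Even f → φ f ∈ (algebraMap M Ω).range) (f : A.F) :
    IsIntegral M (φ f) := by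
  obtain ⟨ι, hι, hι2⟩ := exists_neg A
  have hev : A.ev (-A.gen) = ι := by rw [← hι, AVar.ev_eq]
  have h1 : A.Even (f + ι f) := by
    unfold AVar.Even
    rw [hev, map_add, hι2, add_comm]
  have h2 : A.Even (f * ι f) := by
    unfold AVar.Even
    rw [hev, map_mul, hι2, mul_comm]
  obtain ⟨s, hs⟩ := h _ h1
  obtain ⟨p, hp⟩ := h _ h2
  refine ⟨Polynomial.X ^ 2 - Polynomial.C s * Polynomial.X + Polynomial.C p, ?_, ?_⟩
  · monicity!
  · rw [Polynomial.eval₂_add, Polynomial.eval₂_sub, Polynomial.eval₂_mul, Polynomial.eval₂_pow,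
      Polynomial.eval₂_C, Polynomial.eval₂_C, Polynomial.eval₂_X, hs, hp, map_add, map_mul]
    ring

/-! ### algebraic elements -/

theorem isAlgebraic_of_range_subset {R : Type u} [CommRing R] [Algebra R Ω]
    (hinj : Function.Injective (algebraMap R Ω)) (D : IntermediateField K Ω)
    (h : ∀ r : R, algebraMap R Ω r ∈ D) {x : Ω} (hx : IsAlgebraic R x) : IsAlgebraic D x := by
  obtain ⟨p, hp0, hp⟩ := hx
  let f : R →+* D :=
    { toFun := fun r => ⟨algebraMap R Ω r, h r⟩
      map_one' := Subtype.ext (_root_.map_one _)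
      map_mul' := fun x y => Subtype.ext (_root_.map_mul _ x y)
      map_zero' := Subtype.ext (_root_.map_zero _)
      map_add' := fun x y => Subtype.ext (_root_.map_add _ x y) }
  have hf : Function.Injective f := fun r s hrs => hinj (congrArg Subtype.val hrs)
  refine ⟨p.map f, ?_, ?_⟩
  · rwa [Ne, Polynomial.map_eq_zero_iff hf]
  · rw [Polynomial.aeval_def, Polynomial.eval₂_map]
    exact hp

theorem adjoin_subset_sup (B : IntermediateField K Ω) (t : Set Ω) {r : Ω}
    (hr : r ∈ Algebra.adjoin B t) : r ∈ B ⊔ IntermediateField.adjoin K t := by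
  have h1 : IntermediateField.adjoin K t ≤ B ⊔ IntermediateField.adjoin K t := le_sup_right
  have h2 : B ≤ B ⊔ IntermediateField.adjoin K t := le_sup_left
  induction hr using Algebra.adjoin_induction with
  | mem x hx => exact h1 (IntermediateField.subset_adjoin K t hx)
  | algebraMap r => exact h2 r.2
  | add x y _ _ hx hy => exact add_mem hx hy
  | mul x y _ _ hx hy => exact mul_mem hx hy

/-- the algebraic closure of `C` in `Ω` contains the values of all functions if it contains the
values of the even functions -/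
theorem mem_closure_of_even (φ : A.F →ₐ[K] Ω) (C : IntermediateField K Ω)
    (h : ∀ f : A.F, A.Even f → IsAlgebraic C (φ f)) (f : A.F) : IsAlgebraic C (φ f) := by
  let Cb : IntermediateField C Ω := algebraicClosure C Ω
  have h1 : IsIntegral Cb (φ f) := by
    refine isIntegral_of_even A φ (M := Cb) (fun f hf => ?_) f
    exact ⟨⟨φ f, mem_algebraicClosure_iff.mpr (h f hf)⟩, rfl⟩
  have h2 : IsIntegral C (φ f) := isIntegral_trans (R := C) (A := Cb) _ h1
  exact h2.isAlgebraic

/-! ### the choice -/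

theorem f1 : F1Stmt A Ω := by
  classical
  intro x a hind
  set B : IntermediateField K Ω := BB A a with hB
  set L : IntermediateField K Ω := B ⊔ A.fd x with hL
  have hBL : B ≤ L := le_sup_left
  have hxL : A.fd x ≤ L := le_sup_right
  have haB : ∀ i, A.fd (a i) ≤ B := fun i => le_iSup (fun i => A.fd (a i)) i
  have hb : Algebra.trdeg K B ≤ (g : Cardinal) * g :=
    trdeg_iSup_le _ fun i => A.trdeg_fd_le _
  obtain ⟨b, hbn⟩ : ∃ b : ℕ, Algebra.trdeg K B = b := by
    refine Cardinal.lt_aleph0.mp (lt_of_le_of_lt hb ?_)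
    exact_mod_cast Cardinal.natCast_lt_aleph0 (n := g * g)
  have hLt : Algebra.trdeg K L = (g : Cardinal) * ((g : Cardinal) + 1) := hind
  rw [hbn] at hb
  have hb2 : b ≤ g * g := by exact_mod_cast hb
  have hy : ∀ i, Algebra.trdeg K (A.fd (x - a i)) = g := by
    intro i
    refine le_antisymm (A.trdeg_fd_le _) ?_
    have h1 : L ≤ B ⊔ A.fd (x - a i) := by
      refine sup_le le_sup_left ?_
      have h2 : x = (x - a i) + a i := (sub_add_cancel _ _).symm
      conv_lhs => rw [h2]
      exact fd_add_le_of A le_sup_right ((haB i).trans le_sup_left)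
    have h3 := (trdeg_mono h1).trans (trdeg_sup_le _ _)
    obtain ⟨t, ht⟩ : ∃ t : ℕ, Algebra.trdeg K (A.fd (x - a i)) = t :=
      Cardinal.lt_aleph0.mp (lt_of_le_of_lt (A.trdeg_fd_le _) Cardinal.natCast_lt_aleph0)
    rw [hLt, hbn, ht] at h3
    have h4 : g * (g + 1) ≤ b + t := by exact_mod_cast h3
    rw [ht]
    have h5 : g ≤ t := by nlinarith
    exact_mod_cast h5
  have hφ : ∀ i, ∃ φ : A.F →ₐ[K] Ω, A.map φ A.gen = x - a i := fun i => A.exists_ev _ (hy i)
  choose φ hφ using hφ
  obtain ⟨s, hs, hsind⟩ := exists_algebraicIndependent (B := B) (Om := Ω) (g := g)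
    (fun i => {s | ∃ f : A.F, A.Even f ∧ φ i f = s}) (by
      intro t htg i
      by_contra hcon
      push Not at hcon
      let C : IntermediateField K Ω := B ⊔ IntermediateField.adjoin K (t : Set Ω)
      have h1 : ∀ f : A.F, A.Even f → IsAlgebraic C (φ i f) := by
        intro f hf
        have h2 := hcon (φ i f) ⟨f, hf, rfl⟩
        refine isAlgebraic_of_range_subset (R := Algebra.adjoin B (t : Set Ω))
          Subtype.val_injective C (fun r => adjoin_subset_sup B _ r.2) ?_
        by_contra h3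
        exact h2 h3
      have h2 : ∀ f : A.F, IsAlgebraic C (φ i f) := mem_closure_of_even A (φ i) C h1
      let Cb : IntermediateField K Ω := (algebraicClosure C Ω).restrictScalars K
      have hBC : B ≤ Cb := by
        intro r hr
        refine mem_algebraicClosure_iff.mpr ?_
        exact isAlgebraic_algebraMap (⟨r, (le_sup_left : B ≤ C) hr⟩ : C)
      have hLC : L ≤ Cb := by
        refine sup_le hBC ?_
        have h3 : x = (x - a i) + a i := (sub_add_cancel _ _).symm
        rw [h3]
        refine fd_add_le_of A ?_ ((haB i).trans hBC)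
        rw [← hφ i]
        refine (fd_map_gen_le A (φ i)).trans ?_
        rintro _ ⟨f, rfl⟩
        exact mem_algebraicClosure_iff.mpr (h2 f)
      have h4 : Algebra.trdeg K L ≤ Algebra.trdeg K C :=
        trdeg_le_of_algebraic fun x hx => mem_algebraicClosure_iff.mp (hLC hx)
      have h5 : Algebra.trdeg K C ≤ b + t.card := by
        refine (trdeg_sup_le _ _).trans ?_
        rw [hbn]
        refine add_le_add le_rfl ((trdeg_adjoin_le_mk _).trans ?_)
        simp
      rw [hLt] at h4
      have h6 : g * (g + 1) ≤ b + t.card := by exact_mod_cast h4.trans h5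
      nlinarith)
  choose f hf hfs using hs
  refine ⟨f, hf, ?_⟩
  have hev : ∀ i, A.ev ((fun _ => 1 : Fin g → ℤ) i • x - a i) (f i) = s i := by
    intro i
    show A.ev ((1 : ℤ) • x - a i) (f i) = s i
    rw [one_zsmul, ← hφ i, AVar.ev_eq, hfs]
  set D : IntermediateField K Ω := DD A x a f (fun _ => 1) with hD
  have hBD : B ≤ D := le_sup_left
  have hsD : ∀ i, s i ∈ D := by
    intro i
    have h1 : K⟮A.ev ((fun _ => 1 : Fin g → ℤ) i • x - a i) (f i)⟯ ≤ D :=
      (le_iSup (fun i => K⟮A.ev ((fun _ => 1 : Fin g → ℤ) i • x - a i) (f i)⟯) i).trans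
        le_sup_right
    rw [hev] at h1
    exact h1 (IntermediateField.mem_adjoin_simple_self K _)
  have hsL : ∀ i, s i ∈ L := by
    intro i
    rw [← hfs i]
    have h1 : (φ i).fieldRange ≤ L := by
      rw [← fd_map_gen A (φ i), hφ i]
      exact fd_sub_le_of A hxL ((haB i).trans hBL)
    exact h1 ⟨f i, rfl⟩
  have hDL : D ≤ L := by
    refine sup_le hBL (iSup_le fun i => ?_)
    rw [hev, IntermediateField.adjoin_simple_le_iff]
    exact hsL i
  -- transcendence degrees
  have e1 := trdeg_add_extendScalars hDL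
  have e2 := trdeg_add_extendScalars hBD
  have e3 : (g : Cardinal) ≤ Algebra.trdeg B (extendScalars hBD) := by
    let s' : Fin g → extendScalars hBD := fun i => ⟨s i, hsD i⟩
    have hs' : AlgebraicIndependent B s' :=
      AlgebraicIndependent.of_comp (extendScalars hBD).val hsind
    have := hs'.lift_cardinalMk_le_trdeg
    simpa using this
  have e4 : Algebra.trdeg D (extendScalars hDL) = 0 := by
    have hlt : Algebra.trdeg K L < Cardinal.aleph0 := by
      rw [hLt]
      exact_mod_cast Cardinal.natCast_lt_aleph0 (n := g * (g + 1))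
    have hlt1 : Algebra.trdeg D (extendScalars hDL) < Cardinal.aleph0 :=
      lt_of_le_of_lt (e1 ▸ self_le_add_left _ _) hlt
    have hlt2 : Algebra.trdeg K D < Cardinal.aleph0 :=
      lt_of_le_of_lt (e1 ▸ self_le_add_right _ _) hlt
    have hlt3 : Algebra.trdeg B (extendScalars hBD) < Cardinal.aleph0 :=
      lt_of_le_of_lt (e2 ▸ self_le_add_left _ _) hlt2
    obtain ⟨t1, ht1⟩ := Cardinal.lt_aleph0.mp hlt1
    obtain ⟨t2, ht2⟩ := Cardinal.lt_aleph0.mp hlt2
    obtain ⟨t3, ht3⟩ := Cardinal.lt_aleph0.mp hlt3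
    have h0 := trdeg_sup_le B (A.fd x)
    obtain ⟨t4, ht4⟩ : ∃ t : ℕ, Algebra.trdeg K (A.fd x) = t :=
      Cardinal.lt_aleph0.mp (lt_of_le_of_lt (A.trdeg_fd_le _) Cardinal.natCast_lt_aleph0)
    have h0' : Algebra.trdeg K L ≤ Algebra.trdeg K B + Algebra.trdeg K (A.fd x) := h0
    have h4 := A.trdeg_fd_le x
    rw [ht4] at h4 h0'
    rw [hbn, hLt] at h0'
    rw [ht1, ht2, hLt] at e1
    rw [ht2, ht3, hbn] at e2
    rw [ht3] at e3
    rw [ht1]
    have h4' : t4 ≤ g := by exact_mod_cast h4
    have h0'' : g * (g + 1) ≤ b + t4 := by exact_mod_cast h0'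
    have e1' : t2 + t1 = g * (g + 1) := by exact_mod_cast e1
    have e2' : b + t3 = t2 := by exact_mod_cast e2
    have e3' : g ≤ t3 := by exact_mod_cast e3
    have : t1 = 0 := by nlinarith
    rw [this, Nat.cast_zero]
  have halg : Algebra.IsAlgebraic D (extendScalars hDL) := trdeg_eq_zero_iff.mp e4
  have hfg : L.FG := IntermediateField.fg_sup
    (IntermediateField.fg_iSup fun i => A.fd_fg (a i)) (A.fd_fg x)
  have hfg2 : (extendScalars hDL).FG := IntermediateField.FG.of_restrictScalars (K := K) hfg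
  have hfin : FiniteDimensional D (extendScalars hDL) := by
    obtain ⟨S, hS⟩ := hfg2
    rw [← hS]
    refine IntermediateField.finiteDimensional_adjoin (S := (S : Set Ω)) fun y hy => ?_
    have hyL : y ∈ extendScalars hDL := by
      rw [← hS]
      exact IntermediateField.subset_adjoin _ _ hy
    have h1 : IsAlgebraic D (⟨y, hyL⟩ : extendScalars hDL) := halg.isAlgebraic _
    exact (h1.algHom (extendScalars hDL).val).isIntegral
  show relfinrank D L ≠ 0
  rw [relfinrank_eq_finrank_of_le hDL]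
  exact Module.finrank_pos.ne'

end Fermat.Agent.AVZ
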